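import Mathlib
import Fermat.Agent.S55.LocalImage
import Fermat.Agent.CFT.Global.IdeleDict.DictEmb

/-!
# Program G (S56), GW-Euler base case, node (PL-B): places of a level field as `Ḡ`-sets

`F / ℚ` finite Galois inside `Qb`, `N = F.fixingSubgroup`, `Ḡ = GQ ⧸ N ≅ Gal(F/ℚ)` (`toGal`).
`Ḡ` acts (through `toGal`) on the primes of `𝓞 F` above a rational prime `ℓ` and on the infinite
places of `F`.

* `isPretransitive_quot` : both actions are transitive;
* `stabilizer_prime₀` : the stabiliser of the prime `P₀(ℓ) = {x | ‖padicEmbedding ℓ x‖ < 1}` is the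
  image of `primeLocalToGlobal ℓ` in `Ḡ`;
* `stabilizer_place₀` : the stabiliser of the place of `complexEmbedding` is `⟨c̄⟩`.
-/

set_option autoImplicit false
set_option linter.unusedSectionVars false
set_option linter.style.haveILetI false

open NumberField ExtCitation
open Fermat.Agent.CFT Fermat.Agent.CFT.IdeleDict

namespace Fermat.Agent.TW.Euler.Base.PL

local notation "Qb" => AlgebraicClosure ℚ
local notation "GQ" => (AlgebraicClosure ℚ ≃ₐ[ℚ] AlgebraicClosure ℚ)

section Restrict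

variable (F : IntermediateField ℚ Qb) [NumberField F] [IsGalois ℚ F]

theorem restrict_coe (σ : GQ) (x : F) :
    ((AlgEquiv.restrictNormalHom F σ x : F) : Qb) = σ (x : Qb) :=
  AlgEquiv.restrictNormal_commutes σ F x

theorem normal_Qb : Normal ℚ Qb := by
  haveI : IsAlgClosure ℚ Qb := AlgebraicClosure.instIsAlgClosure ℚ
  exact IsAlgClosure.normal ℚ Qb

theorem restrict_surjective :
    Function.Surjective (AlgEquiv.restrictNormalHom (F := ℚ) (K₁ := Qb) F) := by
  haveI := normal_Qb
  exact AlgEquiv.restrictNormalHom_surjective Qb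

/-- The kernel of the restriction `GQ → Gal(F/ℚ)`. -/
theorem restrict_eq_one_iff (σ : GQ) :
    AlgEquiv.restrictNormalHom F σ = 1 ↔ σ ∈ F.fixingSubgroup := by
  rw [IntermediateField.mem_fixingSubgroup_iff]
  constructor
  · intro h x hx
    have := restrict_coe F σ ⟨x, hx⟩
    rw [h] at this
    exact this.symm
  · intro h
    ext x
    rw [restrict_coe]
    exact h x x.2

variable (N : Subgroup GQ) [N.Normal]

/-- `Ḡ = GQ ⧸ N → Gal(F/ℚ)` for `N = Gal(Qb/F)`. -/
noncomputable def toGal (hNF : N = F.fixingSubgroup) : GQ ⧸ N →* (F ≃ₐ[ℚ] F) :=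
  QuotientGroup.lift N (AlgEquiv.restrictNormalHom F) (fun g hg => by
    rw [MonoidHom.mem_ker, restrict_eq_one_iff, ← hNF]; exact hg)

theorem toGal_mk (hNF : N = F.fixingSubgroup) (σ : GQ) :
    toGal F N hNF (QuotientGroup.mk σ) = AlgEquiv.restrictNormalHom F σ := rfl

theorem toGal_surjective (hNF : N = F.fixingSubgroup) : Function.Surjective (toGal F N hNF) := by
  intro s
  obtain ⟨σ, rfl⟩ := restrict_surjective F s
  exact ⟨QuotientGroup.mk σ, rfl⟩

theorem toGal_injective (hNF : N = F.fixingSubgroup) : Function.Injective (toGal F N hNF) := by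
  rw [injective_iff_map_eq_one]
  intro g hg
  induction g using QuotientGroup.induction_on with
  | H σ =>
    rw [toGal_mk, restrict_eq_one_iff, ← hNF] at hg
    exact (QuotientGroup.eq_one_iff σ).mpr hg

/-- `Ḡ` acts on every `Gal(F/ℚ)`-set. -/
@[reducible] noncomputable def quotAction (hNF : N = F.fixingSubgroup) (X : Type*)
    [MulAction (F ≃ₐ[ℚ] F) X] : MulAction (GQ ⧸ N) X :=
  MulAction.compHom X (toGal F N hNF)

theorem quot_smul_def (hNF : N = F.fixingSubgroup) (X : Type*) [MulAction (F ≃ₐ[ℚ] F) X]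
    (g : GQ ⧸ N) (x : X) :
    letI := quotAction F N hNF X
    g • x = toGal F N hNF g • x := rfl

theorem isPretransitive_quot (hNF : N = F.fixingSubgroup) (X : Type*) [MulAction (F ≃ₐ[ℚ] F) X]
    [MulAction.IsPretransitive (F ≃ₐ[ℚ] F) X] :
    letI := quotAction F N hNF X
    MulAction.IsPretransitive (GQ ⧸ N) X := by
  let _ := quotAction F N hNF X
  refine ⟨fun x y => ?_⟩
  obtain ⟨s, hs⟩ := MulAction.exists_smul_eq (F ≃ₐ[ℚ] F) x y
  obtain ⟨g, rfl⟩ := toGal_surjective F N hNF s
  exact ⟨g, hs⟩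

theorem stabilizer_quot (hNF : N = F.fixingSubgroup) (X : Type*) [MulAction (F ≃ₐ[ℚ] F) X]
    (x : X) :
    letI := quotAction F N hNF X
    MulAction.stabilizer (GQ ⧸ N) x =
      (MulAction.stabilizer (F ≃ₐ[ℚ] F) x).comap (toGal F N hNF) := by
  let _ := quotAction F N hNF X
  ext g
  rfl

end Restrict

section Infinite

variable (F : IntermediateField ℚ Qb) [NumberField F] [IsGalois ℚ F]

/-- The complex embedding of `F` induced by `complexEmbedding`. -/
noncomputable def cEmb : F →+* ℂ := complexEmbedding.toRingHom.comp (algebraMap F Qb)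

theorem cEmb_apply (x : F) : cEmb F x = complexEmbedding (x : Qb) := rfl

/-- The infinite place of `F` induced by `complexEmbedding`. -/
noncomputable def place₀ : InfinitePlace F := InfinitePlace.mk (cEmb F)

/-- The restriction of complex conjugation is conjugate for `cEmb`. -/
theorem isConj_restrict_complexConjugation :
    ComplexEmbedding.IsConj (cEmb F) (AlgEquiv.restrictNormalHom F complexConjugation) := by
  refine RingHom.ext fun x => ?_
  show star (cEmb F x) = cEmb F (AlgEquiv.restrictNormalHom F complexConjugation x)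
  rw [cEmb_apply, cEmb_apply, restrict_coe, complexEmbedding_complexConjugation]
  rfl

/-- The stabiliser in `Gal(F/ℚ)` of the place of `complexEmbedding` is generated by the restriction
of complex conjugation. -/
theorem stabilizer_place₀_gal :
    MulAction.stabilizer (F ≃ₐ[ℚ] F) (place₀ F) =
      Subgroup.zpowers (AlgEquiv.restrictNormalHom F complexConjugation) := by
  set c := AlgEquiv.restrictNormalHom F complexConjugation with hc
  have hconj := isConj_restrict_complexConjugation F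
  have hcc : c * c = 1 := by
    rw [hc, ← map_mul, complexConjugation_mul_self, map_one]
  ext σ
  rw [place₀, InfinitePlace.mem_stabilizer_mk_iff]
  constructor
  · rintro (rfl | h)
    · exact Subgroup.one_mem _
    · rw [← hconj.ext h]
      exact Subgroup.mem_zpowers c
  · intro h
    obtain ⟨n, rfl⟩ := Subgroup.mem_zpowers_iff.mp h
    rcases Int.even_or_odd n with ⟨m, rfl⟩ | ⟨m, rfl⟩
    · left
      rw [← two_mul, zpow_mul, zpow_two, hcc, one_zpow]
    · right
      rw [zpow_add, zpow_one, zpow_mul, zpow_two, hcc, one_zpow, one_mul]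
      exact hconj

end Infinite

section InfiniteQuot

variable (F : IntermediateField ℚ Qb) [NumberField F] [IsGalois ℚ F]
  (N : Subgroup GQ) [N.Normal]

instance isPretransitive_infinitePlace : MulAction.IsPretransitive (F ≃ₐ[ℚ] F) (InfinitePlace F) :=
  ⟨fun _ _ => InfinitePlace.exists_smul_eq_of_comap_eq (Subsingleton.elim _ _)⟩

/-- **(PL-B3)** The stabiliser in `Ḡ` of the place of `complexEmbedding` is `⟨c̄⟩`. -/
theorem stabilizer_place₀ (hNF : N = F.fixingSubgroup) :
    letI := quotAction F N hNF (InfinitePlace F)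
    MulAction.stabilizer (GQ ⧸ N) (place₀ F) =
      Subgroup.zpowers (QuotientGroup.mk complexConjugation : GQ ⧸ N) := by
  rw [stabilizer_quot, stabilizer_place₀_gal, ← toGal_mk F N hNF, ← MonoidHom.map_zpowers,
    Subgroup.comap_map_eq_self_of_injective (toGal_injective F N hNF)]

end InfiniteQuot

section Finite

open scoped Pointwise

variable (F : IntermediateField ℚ Qb) [NumberField F] [IsGalois ℚ F] (q : ℕ) [hq : Fact q.Prime]

/-- The primes of `𝓞 F` above the rational prime `q`. -/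
abbrev PrimesOverRat : Type := {P : Ideal (𝓞 F) // P.IsPrime ∧ (q : 𝓞 F) ∈ P}

/-- A prime of `𝓞 F` containing `q` lies over `(q)`. -/
theorem liesOver_span_of_mem {P : Ideal (𝓞 F)} (hP : P.IsPrime) (hqP : (q : 𝓞 F) ∈ P) :
    P.LiesOver (Ideal.span {(q : ℤ)}) := by
  have hmax : (Ideal.span {(q : ℤ)}).IsMaximal :=
    PrincipalIdealRing.isMaximal_of_irreducible
      (Nat.prime_iff_prime_int.mp hq.out).irreducible
  have hprime : (P.under ℤ).IsPrime := Ideal.IsPrime.under ℤ P
  refine ⟨hmax.eq_of_le hprime.ne_top ?_⟩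
  rw [Ideal.span_singleton_le_iff_mem, Ideal.mem_comap]
  simpa using hqP

theorem natCast_smul_eq (σ : F ≃ₐ[ℚ] F) : σ • (q : 𝓞 F) = (q : 𝓞 F) := by
  apply Subtype.ext
  show σ ((q : 𝓞 F) : F) = ((q : 𝓞 F) : F)
  rw [show (((q : 𝓞 F)) : F) = (q : F) from rfl, map_natCast]

noncomputable instance : MulAction (F ≃ₐ[ℚ] F) (PrimesOverRat F q) where
  smul σ P := ⟨σ • P.1, by
    haveI := P.2.1
    exact inferInstance, by
    have h := Ideal.smul_mem_pointwise_smul σ _ _ P.2.2
    rwa [natCast_smul_eq] at h⟩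
  one_smul P := Subtype.ext (one_smul _ P.1)
  mul_smul σ τ P := Subtype.ext (mul_smul σ τ P.1)

theorem coe_smul_primesOverRat (σ : F ≃ₐ[ℚ] F) (P : PrimesOverRat F q) :
    (σ • P).1 = σ • P.1 := rfl

instance isPretransitive_primesOverRat :
    MulAction.IsPretransitive (F ≃ₐ[ℚ] F) (PrimesOverRat F q) := by
  refine ⟨fun P Q => ?_⟩
  haveI := P.2.1
  haveI := Q.2.1
  haveI := liesOver_span_of_mem F q P.2.1 P.2.2
  haveI := liesOver_span_of_mem F q Q.2.1 Q.2.2
  haveI : IsGaloisGroup (F ≃ₐ[ℚ] F) ℤ (𝓞 F) :=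
    IsGaloisGroup.of_isFractionRing (F ≃ₐ[ℚ] F) ℤ (𝓞 F) ℚ F
  obtain ⟨σ, hσ⟩ := Ideal.exists_smul_eq_of_isGaloisGroup (Ideal.span {(q : ℤ)}) P.1 Q.1
    (F ≃ₐ[ℚ] F)
  exact ⟨σ, Subtype.ext hσ⟩

/-- The embedding `F → ℚ̄_q` induced by `padicEmbedding q`. -/
noncomputable def pEmb : LocalEmb q F := (padicEmbedding q).toRingHom.comp (algebraMap F Qb)

theorem pEmb_apply (x : F) : pEmb F q x = padicEmbedding q (x : Qb) := rfl

/-- The prime `P₀(q) = {x ∈ 𝓞 F | ‖padicEmbedding q x‖ < 1}`. -/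
noncomputable def prime₀ : PrimesOverRat F q :=
  ⟨primeOf (pEmb F q), primeOf_isPrime _, natCast_mem_primeOf _⟩

theorem mem_prime₀ (x : 𝓞 F) : x ∈ (prime₀ F q).1 ↔ ‖padicEmbedding q ((x : F) : Qb)‖ < 1 :=
  Iff.rfl

theorem mem_smul_prime₀ (σ : F ≃ₐ[ℚ] F) (x : 𝓞 F) :
    x ∈ (σ • prime₀ F q).1 ↔ ‖padicEmbedding q ((σ⁻¹ (x : F) : F) : Qb)‖ < 1 := by
  rw [coe_smul_primesOverRat, Ideal.mem_pointwise_smul_iff_inv_smul_mem]
  rfl

/-- The stabiliser in `Gal(F/ℚ)` of `P₀(q)`: the elements induced by `G_{ℚ_q}`. -/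
theorem mem_stabilizer_prime₀_gal (σ : F ≃ₐ[ℚ] F) :
    σ ∈ MulAction.stabilizer (F ≃ₐ[ℚ] F) (prime₀ F q) ↔
      ∃ γ : PadicAlgCl q ≃ₐ[ℚ_[q]] PadicAlgCl q,
        AlgEquiv.restrictNormalHom F (localGaloisToGlobal q γ) = σ := by
  have key : (∃ γ : Gq q, ∀ y : F, pEmb F q (σ y) = γ (pEmb F q y)) ↔
      ∃ γ : PadicAlgCl q ≃ₐ[ℚ_[q]] PadicAlgCl q,
        AlgEquiv.restrictNormalHom F (localGaloisToGlobal q γ) = σ := by
    refine exists_congr fun γ => ?_
    constructor
    · intro h
      ext y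
      apply (padicEmbedding q).toRingHom.injective
      show padicEmbedding q _ = padicEmbedding q _
      rw [restrict_coe, padicEmbedding_localGaloisToGlobal]
      exact (h y).symm
    · rintro rfl y
      rw [pEmb_apply, restrict_coe, padicEmbedding_localGaloisToGlobal]
      rfl
  rw [← key, MulAction.mem_stabilizer_iff]
  constructor
  · intro h
    -- `primeOf (pEmb ∘ σ⁻¹) = primeOf pEmb`
    have h1 : primeOf ((pEmb F q).comp (σ⁻¹ : F ≃ₐ[ℚ] F).toAlgHom.toRingHom) =
        primeOf (pEmb F q) := by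
      ext x
      have := congrArg (fun P : PrimesOverRat F q => x ∈ P.1) h
      simp only [mem_smul_prime₀] at this
      exact this.to_iff
    obtain ⟨γ, hγ⟩ := primeOf_eq_iff_exists_smul.mp h1
    refine ⟨γ, fun y => ?_⟩
    have h2 := RingHom.congr_fun hγ (σ y)
    rw [localEmb_smul_apply] at h2
    have h3 : ((pEmb F q).comp (σ⁻¹ : F ≃ₐ[ℚ] F).toAlgHom.toRingHom) (σ y) = pEmb F q y := by
      show pEmb F q (σ⁻¹ (σ y)) = pEmb F q y
      rw [show σ⁻¹ (σ y) = y from σ.symm_apply_apply y]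
    rw [h3] at h2
    exact h2.symm
  · rintro ⟨γ, hγ⟩
    apply Subtype.ext
    ext x
    rw [mem_smul_prime₀, mem_prime₀]
    have h1 := hγ (σ⁻¹ (x : F))
    rw [show σ (σ⁻¹ (x : F)) = (x : F) from σ.apply_symm_apply _, pEmb_apply, pEmb_apply] at h1
    rw [h1, norm_gq_apply]

end Finite

section FiniteQuot

variable (F : IntermediateField ℚ Qb) [NumberField F] [IsGalois ℚ F]
  (N : Subgroup GQ) [N.Normal] (ℓ : Nat.Primes)

/-- **(PL-B2)** The stabiliser in `Ḡ` of the prime `P₀(ℓ)` cut out by `padicEmbedding ℓ` is the image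
of `primeLocalToGlobal ℓ`. -/
theorem stabilizer_prime₀ (hNF : N = F.fixingSubgroup) :
    haveI : Fact ((ℓ : ℕ)).Prime := ⟨ℓ.2⟩
    letI := quotAction F N hNF (PrimesOverRat F (ℓ : ℕ))
    MulAction.stabilizer (GQ ⧸ N) (prime₀ F (ℓ : ℕ)) =
      ((QuotientGroup.mk' N).comp (primeLocalToGlobal ℓ)).range := by
  haveI : Fact ((ℓ : ℕ)).Prime := ⟨ℓ.2⟩
  rw [stabilizer_quot]
  ext g
  induction g using QuotientGroup.induction_on with
  | H σ =>
    rw [Subgroup.mem_comap, toGal_mk, mem_stabilizer_prime₀_gal, MonoidHom.mem_range]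
    constructor
    · rintro ⟨γ, hγ⟩
      refine ⟨γ, toGal_injective F N hNF ?_⟩
      exact hγ
    · rintro ⟨γ, hγ⟩
      refine ⟨γ, ?_⟩
      have := congrArg (toGal F N hNF) hγ
      exact this

end FiniteQuot

end Fermat.Agent.TW.Euler.Base.PL
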