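/-
Program G (S56), block GW-Euler, base case, node (PL), plugged consumer statements: the local terms
of `X_φ = baseMod N D φ` as `[k' : 𝔽_p]` times the number of good `D`-orbits on the primes of the
fixed field `F` of `N` above `ℓ`, resp. on the infinite places of `F`.  helper12.
(= helper7's `MackeyOrb/ConsumerPL` fed with the stabiliser computations of `PL/Places`.)
-/
import Fermat.Agent.TW.Euler.Base.MackeyOrb.ConsumerPL
import Fermat.Agent.TW.Euler.Base.PL.Places

set_option autoImplicit false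
set_option linter.style.haveILetI false

open CategoryTheory Module ExtCitation NumberField
open Fermat.Agent.CFT Fermat.Agent.S55

attribute [-instance] AddSubgroupClass.instZModModule

namespace Fermat.Agent.TW.Euler.Base.PL

open MulAction Fermat.Agent.TW.Euler Fermat.Agent.TW.Euler.Base.MackeyOrb

local notation "Qb" => AlgebraicClosure ℚ
local notation "GQ" => (AlgebraicClosure ℚ ≃ₐ[ℚ] AlgebraicClosure ℚ)

variable {p : ℕ} [Fact p.Prime]
  (F : IntermediateField ℚ Qb) [NumberField F] [IsGalois ℚ F]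
  (N : Subgroup GQ) [N.Normal] (hNF : N = F.fixingSubgroup)
  (D : Subgroup (GQ ⧸ N)) {k' : Type} [Field k'] [Algebra (ZMod p) k'] (φ : D →* k'ˣ)

/-- **(PL, finite places)** `h⁰(G_ℓ, X_φ) = [k' : 𝔽_p] · #{good D-orbits on the primes of F above ℓ}`. -/
theorem h0Loc_baseMod_primes [N.FiniteIndex] (ℓ : Nat.Primes) :
    haveI : Fact ((ℓ : ℕ)).Prime := ⟨ℓ.2⟩
    letI := quotAction F N hNF (PrimesOverRat F (ℓ : ℕ))
    h0Loc ℓ (baseMod (p := p) N D φ) =
      finrank (ZMod p) k' * Nat.card {ω : Orb D (PrimesOverRat F (ℓ : ℕ)) // Good φ ω} := by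
  haveI : Fact ((ℓ : ℕ)).Prime := ⟨ℓ.2⟩
  letI := quotAction F N hNF (PrimesOverRat F (ℓ : ℕ))
  haveI := isPretransitive_quot F N hNF (PrimesOverRat F (ℓ : ℕ))
  exact h0Loc_baseMod_of_stabilizer N D φ ℓ (prime₀ F (ℓ : ℕ)) (stabilizer_prime₀ F N ℓ hNF)

/-- **(PL, the real place)** `h⁰(G_∞, X_φ) = [k' : 𝔽_p] · #{good D-orbits on the infinite places of F}`. -/
theorem hInf_baseMod_places [N.FiniteIndex] :
    letI := quotAction F N hNF (InfinitePlace F)
    hInf (baseMod (p := p) N D φ) =
      finrank (ZMod p) k' * Nat.card {ω : Orb D (InfinitePlace F) // Good φ ω} := by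
  letI := quotAction F N hNF (InfinitePlace F)
  haveI := isPretransitive_quot F N hNF (InfinitePlace F)
  exact hInf_baseMod_of_stabilizer N D φ (place₀ F) (stabilizer_place₀ F N hNF)

end Fermat.Agent.TW.Euler.Base.PL
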