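/-
Program G (S56), block GW-Euler, base case, node (PL-C), generic part.  helper12.  Mathlib only
(+ helper7's `Orb`).  If the `D`-orbits on `X` are exactly the fibres of a surjection `f : X → Y`,
then the orbit space is `Y` and the size of an orbit is the size of the fibre.
-/
import Fermat.Agent.TW.Euler.Base.MackeyOrb.Cyclic

set_option autoImplicit false
set_option linter.style.haveILetI false

namespace Fermat.Agent.TW.Euler.Base.PL

open MulAction Fermat.Agent.TW.Euler.Base.MackeyOrb

variable {D : Type*} [Group D] {X : Type*} [MulAction D X] {Y : Type*} (f : X → Y)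

/-- The orbit space of `X` is `Y` when the orbits are the fibres of the surjection `f`. -/
noncomputable def orbEquivOfFiber (hf : Function.Surjective f)
    (hfib : ∀ x y : X, f x = f y ↔ ∃ d : D, d • x = y) : Orb D X ≃ Y :=
  Equiv.ofBijective
    (Quotient.lift f (fun x y (h : x ∈ orbit D y) => by
      obtain ⟨d, rfl⟩ := h
      exact ((hfib y (d • y)).mpr ⟨d, rfl⟩).symm))
    ⟨by
      intro a b
      induction a using Quotient.inductionOn' with
      | h x =>
        induction b using Quotient.inductionOn' with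
        | h y =>
          intro h
          obtain ⟨d, hd⟩ := (hfib x y).mp h
          apply Quotient.sound'
          show x ∈ orbit D y
          exact ⟨d⁻¹, by
            show d⁻¹ • y = x
            rw [← hd, inv_smul_smul]⟩,
     fun y => by
      obtain ⟨x, rfl⟩ := hf y
      exact ⟨Quotient.mk'' x, rfl⟩⟩

theorem orbEquivOfFiber_mk (hf : Function.Surjective f)
    (hfib : ∀ x y : X, f x = f y ↔ ∃ d : D, d • x = y) (x : X) :
    orbEquivOfFiber f hf hfib (Quotient.mk'' x : Orb D X) = f x := rfl

/-- The size of an orbit is the size of the corresponding fibre. -/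
theorem card_orbit_eq_card_fiber (hf : Function.Surjective f)
    (hfib : ∀ x y : X, f x = f y ↔ ∃ d : D, d • x = y) (ω : Orb D X) :
    Nat.card ω.orbit = Nat.card {x : X // f x = orbEquivOfFiber f hf hfib ω} := by
  induction ω using Quotient.inductionOn' with
  | h x =>
    rw [orbitRel.Quotient.orbit_mk, orbEquivOfFiber_mk]
    refine Nat.card_congr (Equiv.subtypeEquivRight (fun y => ?_))
    constructor
    · rintro ⟨d, rfl⟩
      exact ((hfib x (d • x)).mpr ⟨d, rfl⟩).symm
    · intro h
      obtain ⟨d, hd⟩ := (hfib x y).mp h.symm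
      exact ⟨d, hd⟩

/-- **(PL-C, generic)** counting the orbits `ω` with `ζ ^ #ω = 1` as points `y` of `Y` with
`ζ ^ #f⁻¹(y) = 1`. -/
theorem card_orb_pow_eq_card_fiber_pow (hf : Function.Surjective f)
    (hfib : ∀ x y : X, f x = f y ↔ ∃ d : D, d • x = y) {M : Type*} [Monoid M] (ζ : M) :
    Nat.card {ω : Orb D X // ζ ^ Nat.card ω.orbit = 1} =
      Nat.card {y : Y // ζ ^ Nat.card {x : X // f x = y} = 1} :=
  Nat.card_congr ((orbEquivOfFiber f hf hfib).subtypeEquiv (fun ω => by
    rw [card_orbit_eq_card_fiber f hf hfib ω]))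

/-- **(PL-C, generic, cyclic)** for `D = ⟨σ⟩`: good orbits ↔ points `y` with `φ σ ^ #f⁻¹(y) = 1`. -/
theorem card_good_eq_card_fiber_pow (hf : Function.Surjective f)
    (hfib : ∀ x y : X, f x = f y ↔ ∃ d : D, d • x = y) {K : Type*} [Field K]
    (σ : D) (hσ : ∀ d : D, d ∈ Subgroup.zpowers σ) (φ : D →* Kˣ) :
    Nat.card {ω : Orb D X // Good φ ω} =
      Nat.card {y : Y // φ σ ^ Nat.card {x : X // f x = y} = 1} := by
  rw [card_good_cyclic σ hσ φ, card_orb_pow_eq_card_fiber_pow f hf hfib]

end Fermat.Agent.TW.Euler.Base.PL
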