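/-
Program G (S56), block GW-Euler, base case, node (PL-C): the bundle `K = F^D ⊂ F` and the translation
of helper7's good-orbit counts into the index sets of helper18's `finrank_eigenspace_sUnits`
(primes `v` of `K` above `T` with `ζ ^ numAbove K F v = 1`, infinite places `w` of `K` with
`ζ ^ #{w' | w} = 1`), for `D = ⟨d₀⟩` cyclic, `ζ = φ d₀`.  helper12.
-/
import Fermat.Agent.TW.Euler.Base.PL.Consumer
import Fermat.Agent.TW.Euler.Base.PL.OrbitFiber
import Fermat.Agent.CFT.Global.HerbrandSUnits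
import Fermat.Agent.CFT.Global.IdeleDict.DictContent

set_option autoImplicit false
set_option linter.style.haveILetI false
set_option linter.unusedSectionVars false

open CategoryTheory Module ExtCitation NumberField IsDedekindDomain
open Fermat.Agent.CFT Fermat.Agent.S55

attribute [-instance] AddSubgroupClass.instZModModule

namespace Fermat.Agent.TW.Euler.Base.PL

open MulAction Fermat.Agent.TW.Euler Fermat.Agent.TW.Euler.Base.MackeyOrb
open Fermat.Agent.CFT.HerbrandSUnits

local notation "Qb" => AlgebraicClosure ℚ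
local notation "GQ" => (AlgebraicClosure ℚ ≃ₐ[ℚ] AlgebraicClosure ℚ)

section Bundle

variable (F : IntermediateField ℚ Qb) [NumberField F] [IsGalois ℚ F]
  (N : Subgroup GQ) [N.Normal] (hNF : N = F.fixingSubgroup)
  (D : Subgroup (GQ ⧸ N))

/-- The image of `D ≤ Ḡ` in `Gal(F/ℚ)`. -/
noncomputable def galD : Subgroup (F ≃ₐ[ℚ] F) := D.map (toGal F N hNF)

/-- The fixed field `K = F^D`. -/
noncomputable def fixK : IntermediateField ℚ F := IntermediateField.fixedField (galD F N hNF D)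

theorem fixingSubgroup_fixK : (fixK F N hNF D).fixingSubgroup = galD F N hNF D :=
  IntermediateField.fixingSubgroup_fixedField _

/-- `D ≃ Gal(F/K)`. -/
noncomputable def dEquiv : D ≃* (F ≃ₐ[fixK F N hNF D] F) :=
  ((D.equivMapOfInjective (toGal F N hNF) (toGal_injective F N hNF)).trans
    (MulEquiv.subgroupCongr (fixingSubgroup_fixK F N hNF D).symm)).trans
    (IntermediateField.fixingSubgroupEquiv (fixK F N hNF D))

theorem dEquiv_apply (d : D) (x : F) :
    dEquiv F N hNF D d x = toGal F N hNF (d : GQ ⧸ N) x := rfl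

theorem toGal_dEquiv_symm (σ : F ≃ₐ[fixK F N hNF D] F) (x : F) :
    toGal F N hNF ((dEquiv F N hNF D).symm σ : GQ ⧸ N) x = σ x := by
  rw [← dEquiv_apply, MulEquiv.apply_symm_apply]

theorem finrank_fixK [Finite D] : finrank (fixK F N hNF D) F = Nat.card D := by
  rw [← IsGalois.card_aut_eq_finrank, Nat.card_congr (dEquiv F N hNF D).toEquiv]

theorem dEquiv_generator (d₀ : D) (hd₀ : ∀ d : D, d ∈ Subgroup.zpowers d₀)
    (g : F ≃ₐ[fixK F N hNF D] F) : g ∈ Subgroup.zpowers (dEquiv F N hNF D d₀) := by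
  obtain ⟨j, hj⟩ := Subgroup.mem_zpowers_iff.mp (hd₀ ((dEquiv F N hNF D).symm g))
  refine Subgroup.mem_zpowers_iff.mpr ⟨j, ?_⟩
  rw [← map_zpow, hj, MulEquiv.apply_symm_apply]

end Bundle


section FinitePlaces

open scoped Pointwise

variable (F : IntermediateField ℚ Qb) [NumberField F] [IsGalois ℚ F]
  (N : Subgroup GQ) [N.Normal] (hNF : N = F.fixingSubgroup)
  (D : Subgroup (GQ ⧸ N)) (q : ℕ) [hq : Fact q.Prime]

/-- The primes of `𝓞 K` above the rational prime `q`. -/
abbrev H1Over (K : Type*) [Field K] [NumberField K] (q : ℕ) : Type _ :=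
  {v : HeightOneSpectrum (𝓞 K) // (q : 𝓞 K) ∈ v.asIdeal}

theorem natCast_ne_zero_ringOfIntegers (K : Type*) [Field K] [NumberField K] :
    (q : 𝓞 K) ≠ 0 := by
  have : ((q : ℕ) : 𝓞 K) = algebraMap ℕ (𝓞 K) q := rfl
  exact_mod_cast (Nat.cast_ne_zero (R := 𝓞 K)).mpr hq.out.ne_zero

/-- A prime of `𝓞 F` above `q`, as a height-one prime. -/
noncomputable def toH1 (P : PrimesOverRat F q) : HeightOneSpectrum (𝓞 F) :=
  ⟨P.1, P.2.1, fun h => natCast_ne_zero_ringOfIntegers q F (by
    have := P.2.2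
    rwa [h, Ideal.mem_bot] at this)⟩

theorem toH1_asIdeal (P : PrimesOverRat F q) : (toH1 F q P).asIdeal = P.1 := rfl

end FinitePlaces


section FinitePlaces2

open scoped Pointwise

variable (F : IntermediateField ℚ Qb) [NumberField F] [IsGalois ℚ F]
  (N : Subgroup GQ) [N.Normal] (hNF : N = F.fixingSubgroup)
  (D : Subgroup (GQ ⧸ N)) (q : ℕ) [hq : Fact q.Prime]

/-- The two Galois actions on ideals agree. -/
theorem smul_ideal_eq_of_apply_eq {K : IntermediateField ℚ F} (s : F ≃ₐ[ℚ] F) (σ : F ≃ₐ[K] F)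
    (h : ∀ x : F, s x = σ x) (I : Ideal (𝓞 F)) : s • I = σ • I := by
  ext x
  rw [Ideal.mem_pointwise_smul_iff_inv_smul_mem, Ideal.mem_pointwise_smul_iff_inv_smul_mem]
  have : s⁻¹ • x = σ⁻¹ • x := by
    apply Subtype.ext
    show s⁻¹ (x : F) = σ⁻¹ (x : F)
    have h1 : s (σ⁻¹ (x : F)) = (x : F) := by
      rw [h]; exact σ.apply_symm_apply _
    calc s⁻¹ (x : F) = s⁻¹ (s (σ⁻¹ (x : F))) := by rw [h1]
      _ = σ⁻¹ (x : F) := s.symm_apply_apply _
  rw [this]

/-- The prime of `K = F^D` below a prime of `F` above `q`. -/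
noncomputable def belowK (P : PrimesOverRat F q) : H1Over (fixK F N hNF D) q :=
  ⟨primeBelow (fixK F N hNF D) F (toH1 F q P), by
    show (q : 𝓞 (fixK F N hNF D)) ∈ (toH1 F q P).asIdeal.under (𝓞 (fixK F N hNF D))
    rw [Ideal.under_def, Ideal.mem_comap, map_natCast]
    exact P.2.2⟩

theorem belowK_surjective : Function.Surjective (belowK F N hNF D q) := by
  intro v
  obtain ⟨w, hw⟩ := exists_primeBelow_eq (L := F) v.1
  have hqw : (q : 𝓞 F) ∈ w.asIdeal := by
    have h1 : (q : 𝓞 (fixK F N hNF D)) ∈ (primeBelow (fixK F N hNF D) F w).asIdeal := by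
      rw [hw]; exact v.2
    change (q : 𝓞 (fixK F N hNF D)) ∈ w.asIdeal.under (𝓞 (fixK F N hNF D)) at h1
    rwa [Ideal.under_def, Ideal.mem_comap, map_natCast] at h1
  refine ⟨⟨w.asIdeal, w.isPrime, hqw⟩, Subtype.ext ?_⟩
  exact hw

end FinitePlaces2


section FinitePlaces3

open scoped Pointwise

variable (F : IntermediateField ℚ Qb) [NumberField F] [IsGalois ℚ F]
  (N : Subgroup GQ) [N.Normal] (hNF : N = F.fixingSubgroup)
  (D : Subgroup (GQ ⧸ N)) (q : ℕ) [hq : Fact q.Prime]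

theorem coe_subgroup_smul_primesOverRat (d : D) (P : PrimesOverRat F q) :
    letI := quotAction F N hNF (PrimesOverRat F q)
    (d • P).1 = (dEquiv F N hNF D d) • P.1 := by
  letI := quotAction F N hNF (PrimesOverRat F q)
  show (toGal F N hNF (d : GQ ⧸ N)) • P.1 = _
  exact smul_ideal_eq_of_apply_eq F _ _ (fun x => (dEquiv_apply F N hNF D d x).symm) _

theorem under_smul_gal {K : IntermediateField ℚ F} (σ : F ≃ₐ[K] F) (I : Ideal (𝓞 F)) :
    (σ • I).under (𝓞 K) = I.under (𝓞 K) := by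
  ext a
  rw [Ideal.under_def, Ideal.mem_comap, Ideal.mem_comap,
    Ideal.mem_pointwise_smul_iff_inv_smul_mem, smul_algebraMap]

theorem belowK_eq_iff (P Q : PrimesOverRat F q) :
    letI := quotAction F N hNF (PrimesOverRat F q)
    belowK F N hNF D q P = belowK F N hNF D q Q ↔ ∃ d : D, d • P = Q := by
  letI := quotAction F N hNF (PrimesOverRat F q)
  constructor
  · intro h
    have h1 : P.1.under (𝓞 (fixK F N hNF D)) = Q.1.under (𝓞 (fixK F N hNF D)) :=
      congrArg (fun v : H1Over (fixK F N hNF D) q => v.1.asIdeal) h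
    haveI := P.2.1
    haveI := Q.2.1
    haveI : P.1.LiesOver (P.1.under (𝓞 (fixK F N hNF D))) := ⟨rfl⟩
    haveI : Q.1.LiesOver (P.1.under (𝓞 (fixK F N hNF D))) := ⟨h1⟩
    obtain ⟨σ, hσ⟩ := Ideal.exists_smul_eq_of_isGaloisGroup (P.1.under (𝓞 (fixK F N hNF D)))
      P.1 Q.1 (F ≃ₐ[fixK F N hNF D] F)
    refine ⟨(dEquiv F N hNF D).symm σ, Subtype.ext ?_⟩
    rw [coe_subgroup_smul_primesOverRat, MulEquiv.apply_symm_apply, hσ]
  · rintro ⟨d, rfl⟩
    apply Subtype.ext
    apply HeightOneSpectrum.ext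
    show P.1.under (𝓞 (fixK F N hNF D)) = (d • P).1.under (𝓞 (fixK F N hNF D))
    rw [coe_subgroup_smul_primesOverRat, under_smul_gal]

end FinitePlaces3


section FinitePlaces4

open scoped Pointwise

variable (F : IntermediateField ℚ Qb) [NumberField F] [IsGalois ℚ F]
  (N : Subgroup GQ) [N.Normal] (hNF : N = F.fixingSubgroup)
  (D : Subgroup (GQ ⧸ N)) (q : ℕ) [hq : Fact q.Prime]

/-- The fibre of `belowK` over `v` is the set of primes of `F` above `v`. -/
noncomputable def fiberBelowKEquiv (v : H1Over (fixK F N hNF D) q) :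
    {P : PrimesOverRat F q // belowK F N hNF D q P = v} ≃
      {w : HeightOneSpectrum (𝓞 F) // primeBelow (fixK F N hNF D) F w = v.1} where
  toFun P := ⟨toH1 F q P.1, congrArg Subtype.val P.2⟩
  invFun w := ⟨⟨w.1.asIdeal, w.1.isPrime, by
      have h1 : (q : 𝓞 (fixK F N hNF D)) ∈ (primeBelow (fixK F N hNF D) F w.1).asIdeal := by
        rw [w.2]; exact v.2
      change (q : 𝓞 (fixK F N hNF D)) ∈ w.1.asIdeal.under (𝓞 (fixK F N hNF D)) at h1
      rwa [Ideal.under_def, Ideal.mem_comap, map_natCast] at h1⟩, Subtype.ext w.2⟩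
  left_inv P := rfl
  right_inv w := rfl

theorem units_pow_eq_one_iff {k' : Type*} [Monoid k'] (u : k'ˣ) (n : ℕ) :
    u ^ n = 1 ↔ (u : k') ^ n = 1 := by
  rw [Units.ext_iff, Units.val_pow_eq_pow_val, Units.val_one]

/-- **(PL-C, finite places)** for `D = ⟨d₀⟩`: the good `D`-orbits on the primes of `F` above `q` are
counted by the primes `v` of `K = F^D` above `q` with `φ(d₀) ^ g_v = 1`, `g_v = numAbove K F v`. -/
theorem card_good_primes {k' : Type*} [Field k'] (d₀ : D) (hd₀ : ∀ d : D, d ∈ Subgroup.zpowers d₀)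
    (φ : D →* k'ˣ) :
    letI := quotAction F N hNF (PrimesOverRat F q)
    Nat.card {ω : Orb D (PrimesOverRat F q) // Good φ ω} =
      Nat.card {v : H1Over (fixK F N hNF D) q //
        ((φ d₀ : k'ˣ) : k') ^ numAbove (fixK F N hNF D) F v.1 = 1} := by
  letI := quotAction F N hNF (PrimesOverRat F q)
  rw [card_good_eq_card_fiber_pow (belowK F N hNF D q) (belowK_surjective F N hNF D q)
    (belowK_eq_iff F N hNF D q) d₀ hd₀ φ]
  refine Nat.card_congr (Equiv.subtypeEquivRight (fun v => ?_))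
  rw [Nat.card_congr (fiberBelowKEquiv F N hNF D q v), units_pow_eq_one_iff]
  rfl

end FinitePlaces4


section InfinitePlaces

variable (F : IntermediateField ℚ Qb) [NumberField F] [IsGalois ℚ F]
  (N : Subgroup GQ) [N.Normal] (hNF : N = F.fixingSubgroup)
  (D : Subgroup (GQ ⧸ N))

/-- The two Galois actions on infinite places agree. -/
theorem smul_infinitePlace_eq_of_apply_eq {K : IntermediateField ℚ F} (s : F ≃ₐ[ℚ] F)
    (σ : F ≃ₐ[K] F) (h : ∀ x : F, s x = σ x) (w : InfinitePlace F) : s • w = σ • w := by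
  rw [InfinitePlace.smul_eq_comap, InfinitePlace.smul_eq_comap]
  congr 1
  refine RingHom.ext fun x => ?_
  show s.symm x = σ.symm x
  have h1 : s (σ.symm x) = x := by
    rw [h]; exact σ.apply_symm_apply _
  calc s.symm x = s.symm (s (σ.symm x)) := by rw [h1]
    _ = σ.symm x := s.symm_apply_apply _

/-- The infinite place of `K = F^D` below an infinite place of `F`. -/
noncomputable def belowKInf (w : InfinitePlace F) : InfinitePlace (fixK F N hNF D) :=
  w.comap (algebraMap (fixK F N hNF D) F)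

theorem belowKInf_surjective : Function.Surjective (belowKInf F N hNF D) :=
  InfinitePlace.comap_surjective

theorem subgroup_smul_infinitePlace (d : D) (w : InfinitePlace F) :
    letI := quotAction F N hNF (InfinitePlace F)
    d • w = (dEquiv F N hNF D d) • w := by
  letI := quotAction F N hNF (InfinitePlace F)
  show (toGal F N hNF (d : GQ ⧸ N)) • w = _
  exact smul_infinitePlace_eq_of_apply_eq F _ _ (fun x => (dEquiv_apply F N hNF D d x).symm) _

theorem belowKInf_eq_iff (w w' : InfinitePlace F) :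
    letI := quotAction F N hNF (InfinitePlace F)
    belowKInf F N hNF D w = belowKInf F N hNF D w' ↔ ∃ d : D, d • w = w' := by
  letI := quotAction F N hNF (InfinitePlace F)
  constructor
  · intro h
    obtain ⟨σ, hσ⟩ := InfinitePlace.exists_smul_eq_of_comap_eq (k := fixK F N hNF D) (K := F) h
    refine ⟨(dEquiv F N hNF D).symm σ, ?_⟩
    rw [subgroup_smul_infinitePlace, MulEquiv.apply_symm_apply, hσ]
  · rintro ⟨d, rfl⟩
    rw [subgroup_smul_infinitePlace]
    symm
    show ((dEquiv F N hNF D d) • w).comap (algebraMap (fixK F N hNF D) F) =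
      w.comap (algebraMap (fixK F N hNF D) F)
    rw [InfinitePlace.comap_smul]
    congr 1
    refine RingHom.ext fun x => ?_
    exact (dEquiv F N hNF D d).symm.commutes x

/-- **(PL-C, infinite places)** for `D = ⟨d₀⟩`: the good `D`-orbits on the infinite places of `F`
are counted by the infinite places `w` of `K = F^D` with `φ(d₀) ^ g_w = 1`, `g_w` the number of
infinite places of `F` above `w`. -/
theorem card_good_places {k' : Type*} [Field k'] (d₀ : D) (hd₀ : ∀ d : D, d ∈ Subgroup.zpowers d₀)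
    (φ : D →* k'ˣ) :
    letI := quotAction F N hNF (InfinitePlace F)
    Nat.card {ω : Orb D (InfinitePlace F) // Good φ ω} =
      Nat.card {w : InfinitePlace (fixK F N hNF D) // ((φ d₀ : k'ˣ) : k') ^
        Nat.card {w' : InfinitePlace F // w'.comap (algebraMap (fixK F N hNF D) F) = w} = 1} := by
  letI := quotAction F N hNF (InfinitePlace F)
  rw [card_good_eq_card_fiber_pow (belowKInf F N hNF D) (belowKInf_surjective F N hNF D)
    (belowKInf_eq_iff F N hNF D) d₀ hd₀ φ]
  refine Nat.card_congr (Equiv.subtypeEquivRight (fun v => ?_))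
  rw [units_pow_eq_one_iff]
  rfl

end InfinitePlaces


section SumOverT

open Fermat.Agent.CFT.IdeleDict

theorem finite_h1Over (K : Type) [Field K] [NumberField K] (ℓ : Nat.Primes) :
    Finite (H1Over K (ℓ : ℕ)) := by
  have h := primesOver_finite (K := K) (Set.finite_singleton ℓ)
  haveI := h.to_subtype
  exact Finite.of_injective
    (fun v : H1Over K (ℓ : ℕ) => (⟨v.1, ℓ, rfl, v.2⟩ : primesOver K ({ℓ} : Set Nat.Primes)))
    (fun a b hab => Subtype.ext (congrArg (fun x : primesOver K ({ℓ} : Set Nat.Primes) => x.1) hab))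

/-- Summing the counts over the rational primes of `T`. -/
theorem sum_card_h1Over (K : Type) [Field K] [NumberField K] (T : Finset Nat.Primes)
    (pr : HeightOneSpectrum (𝓞 K) → Prop) :
    ∑ ℓ ∈ T, Nat.card {v : H1Over K (ℓ : ℕ) // pr v.1} =
      Nat.card {v : primesOver K (↑T : Set Nat.Primes) // pr v.1} := by
  haveI : ∀ ℓ : Nat.Primes, Finite (H1Over K (ℓ : ℕ)) := finite_h1Over K
  rw [← Finset.sum_coe_sort T (fun ℓ => Nat.card {v : H1Over K (ℓ : ℕ) // pr v.1}),
    ← Nat.card_sigma]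
  refine Nat.card_congr (Equiv.ofBijective
    (fun x : (Σ ℓ : T, {v : H1Over K ((ℓ : Nat.Primes) : ℕ) // pr v.1}) =>
      (⟨⟨x.2.1.1, x.1.1, x.1.2, x.2.1.2⟩, x.2.2⟩ :
        {v : primesOver K (↑T : Set Nat.Primes) // pr v.1})) ⟨?_, ?_⟩)
  · rintro ⟨ℓ, ⟨v, hv⟩, hpv⟩ ⟨ℓ', ⟨v', hv'⟩, hpv'⟩ h
    have h1 : v = v' := congrArg
      (fun x : {v : primesOver K (↑T : Set Nat.Primes) // pr v.1} => x.1.1) h
    subst h1
    have h2 : (ℓ : Nat.Primes) = ℓ' := prime_unique v hv hv'
    have h3 : ℓ = ℓ' := Subtype.ext h2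
    subst h3
    rfl
  · rintro ⟨⟨v, ℓ, hℓ, hv⟩, hpv⟩
    exact ⟨⟨⟨ℓ, hℓ⟩, ⟨v, hv⟩, hpv⟩, rfl⟩

end SumOverT


section Final

open Fermat.Agent.CFT.IdeleDict

variable {p : ℕ} [Fact p.Prime]
  (F : IntermediateField ℚ Qb) [NumberField F] [IsGalois ℚ F]
  (N : Subgroup GQ) [N.Normal] (hNF : N = F.fixingSubgroup)
  (D : Subgroup (GQ ⧸ N)) {k' : Type} [Field k'] [Algebra (ZMod p) k'] (φ : D →* k'ˣ)

/-- **(PL) final, one finite place**, `D = ⟨d₀⟩`, `K = F^D`:
`h⁰(G_ℓ, X_φ) = [k' : 𝔽_p] · #{v | ℓ prime of K : φ(d₀) ^ g_v = 1}`. -/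
theorem h0Loc_baseMod_cyclic [N.FiniteIndex] (ℓ : Nat.Primes) (d₀ : D)
    (hd₀ : ∀ d : D, d ∈ Subgroup.zpowers d₀) :
    h0Loc ℓ (baseMod (p := p) N D φ) =
      finrank (ZMod p) k' * Nat.card {v : H1Over (fixK F N hNF D) (ℓ : ℕ) //
        ((φ d₀ : k'ˣ) : k') ^ numAbove (fixK F N hNF D) F v.1 = 1} := by
  haveI : Fact ((ℓ : ℕ)).Prime := ⟨ℓ.2⟩
  rw [h0Loc_baseMod_primes F N hNF D φ ℓ, card_good_primes F N hNF D (ℓ : ℕ) d₀ hd₀ φ]

/-- **(PL) final, finite places**: the sum over `ℓ ∈ T` is indexed by the primes of `K = F^D`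
above `T` (main's `IdeleDict.primesOver`), in the shape of helper18's `finrank_eigenspace_sUnits`. -/
theorem sum_h0Loc_baseMod_cyclic [N.FiniteIndex] (T : Finset Nat.Primes) (d₀ : D)
    (hd₀ : ∀ d : D, d ∈ Subgroup.zpowers d₀) :
    ∑ ℓ ∈ T, h0Loc ℓ (baseMod (p := p) N D φ) =
      finrank (ZMod p) k' *
        Nat.card {v : primesOver (fixK F N hNF D) (↑T : Set Nat.Primes) //
          ((φ d₀ : k'ˣ) : k') ^ numAbove (fixK F N hNF D) F v.1 = 1} := by
  rw [← sum_card_h1Over (fixK F N hNF D) T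
    (fun v => ((φ d₀ : k'ˣ) : k') ^ numAbove (fixK F N hNF D) F v = 1), Finset.mul_sum]
  exact Finset.sum_congr rfl fun ℓ _ => h0Loc_baseMod_cyclic F N hNF D φ ℓ d₀ hd₀

/-- **(PL) final, the real place**:
`h⁰(G_∞, X_φ) = [k' : 𝔽_p] · #{w infinite place of K : φ(d₀) ^ g_w = 1}`. -/
theorem hInf_baseMod_cyclic [N.FiniteIndex] (d₀ : D)
    (hd₀ : ∀ d : D, d ∈ Subgroup.zpowers d₀) :
    hInf (baseMod (p := p) N D φ) =
      finrank (ZMod p) k' * Nat.card {w : InfinitePlace (fixK F N hNF D) //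
        ((φ d₀ : k'ˣ) : k') ^
          Nat.card {w' : InfinitePlace F // w'.comap (algebraMap (fixK F N hNF D) F) = w} = 1} := by
  rw [hInf_baseMod_places F N hNF D φ, card_good_places F N hNF D d₀ hd₀ φ]

end Final

end Fermat.Agent.TW.Euler.Base.PL
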